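/-
S33lib / Germ / Order  (helper9)  — Project LSp, item (P3) of `PFiltStmt`.

**A connected `A0`-Hopf order from analytic coordinates, for inertia-stable finite subgroups.**

Let `Γ ≤ J` be a finite subgroup stable under the inertia group `I_A` only (no `G_ℚ`- or
`D_A`-stability), carrying coordinates `coord : Γ → 𝔪_A^g` which are inertia-equivariant, injective,
and in which the group law and the negation of `Γ` are `A0`-analytic.  Then the `A0`-algebra of
functions `φ = P ∘ coord`, `P ∈ A0[t₁,…,t_g]`, is a Hopf order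
`O : HopfOrder A ℓ (A0 A) (IA A) Γ`, and it is CONNECTED: `φ x - φ 0 ∈ 𝔪_A`.

This is the single-centre case of FF-E/FF-F: helper2's `F.hopfOrderOf` (a definition which only needs
an action of `I_A` on `Γ`) is applied to `Coords` with ONE fibre (`C = PUnit`).

* `exists_connected_hopfOrder_of_coords` : explicit minimal data on `Γ`;
* `IGerm`                               : the light germ (= the contract for the nodal germ):
                                          no `Θ_mem`, no `D_A`-stability, no `conj_analytic`, no centres;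
* `exists_connected_hopfOrder_of_iGerm` : every finite `I_A`-stable `Γ ≤ G.K`;
* `IGerm.ofAnalyticGerm`, `exists_connected_hopfOrder` : the same for a landed `AnalyticGerm`.
-/
import Mathlib
import Fermat.Agent.S19lib.Iface
import Fermat.Agent.S19lib.F.ToIface
import Fermat.Agent.S19lib.F.Bridge
import Fermat.Agent.S33lib.Iface

set_option autoImplicit false
set_option linter.unusedSectionVars false

noncomputable section

namespace Fermat.Agent.S33lib.Germ

open Fermat.Agent.S19lib MvPolynomial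

local notation "Qb" => AlgebraicClosure ℚ
local notation "GQ" => (AlgebraicClosure ℚ ≃ₐ[ℚ] AlgebraicClosure ℚ)

/-! ### the action of inertia on an inertia-stable subgroup -/

section Act

variable {J : Type} [AddCommGroup J] [DistribMulAction GQ J]

/-- the action of the inertia group on an inertia-stable subgroup of `J` -/
@[reducible] def subActI (A : ValuationSubring Qb) (Γ : AddSubgroup J)
    (hst : ∀ σ ∈ IA A, ∀ x ∈ Γ, σ • x ∈ Γ) : DistribMulAction (IA A) Γ where
  smul σ x := ⟨(σ : GQ) • (x : J), hst σ.1 σ.2 x x.2⟩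
  one_smul x := Subtype.ext (one_smul GQ (x : J))
  mul_smul σ τ x := Subtype.ext (mul_smul (σ : GQ) (τ : GQ) (x : J))
  smul_zero σ := Subtype.ext (smul_zero (σ : GQ))
  smul_add σ x y := Subtype.ext (smul_add (σ : GQ) (x : J) (y : J))

end Act

/-! ### polynomials over `A0` are constant modulo `𝔪_A` on `𝔪_A^g` -/

/-- a polynomial with coefficients in `A0` takes congruent values modulo `𝔪_A` at two points of
`𝔪_A^g` -/
theorem val_aeval_sub_lt_one {A : ValuationSubring Qb} {g : ℕ}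
    (P : MvPolynomial (Fin g) (F.fixedRing A (IA A))) {u w : Fin g → Qb}
    (hu : ∀ i, u i ∈ mSet A) (hw : ∀ i, w i ∈ mSet A) :
    A.valuation (aeval u P - aeval w P) < 1 := by
  have huA : ∀ i, u i ∈ A := fun i => (A.valuation_le_one_iff _).1 (le_of_lt (hu i))
  have hwA : ∀ i, w i ∈ A := fun i => (A.valuation_le_one_iff _).1 (le_of_lt (hw i))
  rcases isEmpty_or_nonempty (Fin g) with hg | hg
  · have huw : u = w := funext fun i => (hg.false i).elim
    rw [huw, sub_self, map_zero]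
    exact zero_lt_one
  obtain ⟨i₀, hi₀⟩ := Finite.exists_max (fun i => A.valuation (u i - w i))
  set d : Qb := u i₀ - w i₀ with hd
  have hdlt : A.valuation d < 1 :=
    lt_of_le_of_lt (Valuation.map_sub _ _ _) (max_lt (hu i₀) (hw i₀))
  have hdA : d ∈ A := (A.valuation_le_one_iff _).1 (le_of_lt hdlt)
  by_cases hd0 : d = 0
  · have huw : u = w := by
      funext i
      have h1 : A.valuation (u i - w i) ≤ 0 := by
        have := hi₀ i
        rwa [hd0, map_zero] at this
      have h2 : u i - w i = 0 := (A.valuation.zero_iff).1 (le_antisymm h1 zero_le)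
      exact sub_eq_zero.1 h2
    rw [huw, sub_self, map_zero]
    exact zero_lt_one
  · have hdv : ∀ i, F.DvdA A d (u i - w i) := by
      intro i
      refine F.dvdA_of_mem hd0 ?_
      rw [← A.valuation_le_one_iff, map_div₀]
      have hd0' : A.valuation d ≠ 0 := (A.valuation.ne_zero_iff).2 hd0
      exact (div_le_one₀ (zero_lt_iff.mpr hd0')).2 (hi₀ i)
    obtain ⟨a, ha, h⟩ := F.aeval_sub_mem P hdA huA hwA hdv
    rw [h, map_mul]
    have ha1 : A.valuation a ≤ 1 := (A.valuation_le_one_iff _).2 ha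
    exact lt_of_le_of_lt (mul_le_of_le_one_right' ha1) hdlt

/-! ### the main construction -/

section Main

variable {ℓ : ℕ} [Fact ℓ.Prime] (A : ValuationSubring Qb)
  {J : Type} [AddCommGroup J] [DistribMulAction GQ J]

/-- **(P3) from coordinates**: a finite inertia-stable subgroup `Γ` with inertia-equivariant,
injective coordinates in `𝔪_A^g` in which addition and negation are `A0`-analytic carries a
connected `A0`-Hopf order. -/
theorem exists_connected_hopfOrder_of_coords (hA : A.LiesOverPrime ℓ) (Γ : AddSubgroup J) [Finite Γ]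
    (hst : ∀ σ ∈ IA A, ∀ x ∈ Γ, σ • x ∈ Γ) {g : ℕ} (coord : J → Fin g → Qb)
    (hmem : ∀ x ∈ Γ, ∀ i, coord x i ∈ mSet A)
    (hsmul : ∀ σ ∈ IA A, ∀ x ∈ Γ, ∀ i, coord (σ • x) i = σ (coord x i))
    (hinj : ∀ x ∈ Γ, ∀ y ∈ Γ, coord x = coord y → x = y)
    (hadd : ∃ Fa : (Fin g ⊕ Fin g → Qb) → Fin g → Qb, (∀ i, A0Analytic A ℓ (fun w => Fa w i)) ∧
      ∀ x ∈ Γ, ∀ x' ∈ Γ, coord (x + x') = Fa (Sum.elim (coord x) (coord x')))
    (hneg : ∃ Fn : (Fin g → Qb) → Fin g → Qb, (∀ i, A0Analytic A ℓ (fun u => Fn u i)) ∧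
      ∀ x ∈ Γ, coord (-x) = Fn (coord x)) :
    ∃ O : HopfOrder A ℓ (A0 A) (IA A) Γ, IsConnectedOrder O := by
  classical
  have hℓ : ℓ.Prime := Fact.out
  let _ : Fintype Γ := Fintype.ofFinite Γ
  let _ := subActI A Γ hst
  have hmemA : ∀ x ∈ Γ, ∀ i, coord x i ∈ A := fun x hx i =>
    (A.valuation_le_one_iff _).1 (le_of_lt (hmem x hx i))
  let T : F.Coords A (IA A) Γ PUnit.{1} g :=
    { c := fun _ => PUnit.unit
      c_smul := fun _ _ => rfl
      τ := fun x => coord (x : J)
      τ_smul := fun σ x i => hsmul σ.1 σ.2 (x : J) x.2 i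
      τ_mem := fun x i => hmemA (x : J) x.2 i
      τ_inj := fun x y _ h => Subtype.ext (hinj (x : J) x.2 (y : J) y.2 h) }
  have hℓA : ((ℓ : ℕ) : Qb) ∈ A :=
    (A.valuation_le_one_iff _).1 (le_of_lt ((A.mem_nonunits_iff).1 hA))
  have : Algebra.IsAlgebraic ℚ Qb := AlgebraicClosure.isAlgebraic ℚ
  have hl : ∀ a : Qb, ∃ n : ℕ, ((ℓ : ℕ) : Qb) ^ n * a ∈ A := F.exists_pow_mul_mem A hℓ hA
  let U₁ : Finset (Fin g → Qb) := Finset.univ.image fun x : Γ => coord (x : J)
  let U₂ : Finset (Fin g ⊕ Fin g → Qb) :=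
    Finset.univ.image fun p : Γ × Γ => Sum.elim (coord (p.1 : J)) (coord (p.2 : J))
  have hU₁ : ∀ u ∈ U₁, ∀ i, u i ∈ mSet A := by
    intro u hu i
    obtain ⟨x, -, rfl⟩ := Finset.mem_image.1 hu
    exact hmem _ x.2 i
  have hU₂ : ∀ u ∈ U₂, ∀ i, u i ∈ mSet A := by
    intro u hu i
    obtain ⟨p, -, rfl⟩ := Finset.mem_image.1 hu
    cases i with
    | inl i => exact hmem _ p.1.2 i
    | inr i => exact hmem _ p.2.2 i
  have hadd' : T.AddApprox (T.D * T.D) := by
    intro _ _
    obtain ⟨Fa, hFa, hFaτ⟩ := hadd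
    choose P hP using fun i => F.exists_approx_of_a0Analytic A ℓ hA (hFa i) U₂ hU₂
      (mul_ne_zero T.D_ne_zero T.D_ne_zero)
    refine ⟨P, fun x x' _ _ i => ?_⟩
    have h := hP i (Sum.elim (coord (x : J)) (coord (x' : J)))
      (Finset.mem_image.2 ⟨(x, x'), Finset.mem_univ _, rfl⟩)
    have h2 : T.τ (x + x') i = Fa (Sum.elim (coord (x : J)) (coord (x' : J))) i :=
      congrFun (hFaτ (x : J) x.2 (x' : J) x'.2) i
    rw [h2]
    exact h
  have hneg' : T.NegApprox T.D := by
    intro _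
    obtain ⟨Fn, hFn, hFnτ⟩ := hneg
    choose P hP using fun i => F.exists_approx_of_a0Analytic A ℓ hA (hFn i) U₁ hU₁ T.D_ne_zero
    refine ⟨P, fun x _ i => ?_⟩
    have h := hP i (coord (x : J)) (Finset.mem_image.2 ⟨x, Finset.mem_univ _, rfl⟩)
    have h2 : T.τ (-x) i = Fn (coord (x : J)) i := congrFun (hFnτ (x : J) x.2) i
    rw [h2]
    exact h
  refine ⟨F.hopfOrderOf A ℓ Γ T (fun _ _ => rfl) hℓA hl (fun _ _ => rfl) hadd' hneg', ?_⟩
  intro φ hφ x
  have hφ' : φ ∈ T.order := hφ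
  obtain ⟨P, hP⟩ := hφ'.2 PUnit.unit
  rw [hP x rfl, hP 0 rfl]
  exact val_aeval_sub_lt_one P (fun i => hmem _ x.2 i) (fun i => hmem _ (0 : Γ).2 i)

end Main

/-! ### the light germ -/

/-- **Inertia-level analytic germ**: the part of `S19lib.AnalyticGerm` which the connected Hopf
order on the points of the kernel of reduction needs.  No `Θ_mem`, no stability of `K` under the
decomposition group, no analyticity of the conjugation, no unramified centres. -/
structure IGerm (A : ValuationSubring Qb) (ℓ : ℕ) (J : Type) [AddCommGroup J]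
    [DistribMulAction GQ J] where
  /-- the dimension -/
  g : ℕ
  /-- the kernel of reduction -/
  K : AddSubgroup J
  /-- the parametrisation (only its values on `𝔪_A^g` matter) -/
  Θ : (Fin g → Qb) → J
  /-- the coordinates (only their values on `K` matter) -/
  coord : J → Fin g → Qb
  coord_mem : ∀ x ∈ K, ∀ i, coord x i ∈ mSet A
  coord_Θ : ∀ u : Fin g → Qb, (∀ i, u i ∈ mSet A) → coord (Θ u) = u
  Θ_coord : ∀ x ∈ K, Θ (coord x) = x
  /-- the parametrisation is inertia-equivariant -/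
  Θ_smul : ∀ σ ∈ IA A, ∀ u : Fin g → Qb, (∀ i, u i ∈ mSet A) → Θ (fun i => σ (u i)) = σ • Θ u
  /-- the group law is analytic -/
  add_analytic : ∀ i, A0Analytic A ℓ
    (fun w : Fin g ⊕ Fin g → Qb => coord (Θ (fun j => w (Sum.inl j)) + Θ (fun j => w (Sum.inr j))) i)
  /-- negation is analytic -/
  neg_analytic : ∀ i, A0Analytic A ℓ (fun u : Fin g → Qb => coord (- Θ u) i)

/-- a landed analytic germ is an inertia-level germ -/
def IGerm.ofAnalyticGerm {A : ValuationSubring Qb} {ℓ : ℕ} {J : Type} [AddCommGroup J]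
    [DistribMulAction GQ J] (G : AnalyticGerm A ℓ J) : IGerm A ℓ J where
  g := G.g
  K := G.K
  Θ := G.Θ
  coord := G.coord
  coord_mem := G.coord_mem
  coord_Θ := G.coord_Θ
  Θ_coord := G.Θ_coord
  Θ_smul := G.Θ_smul
  add_analytic := G.add_analytic
  neg_analytic := G.neg_analytic

section Germ

variable {ℓ : ℕ} [Fact ℓ.Prime] {A : ValuationSubring Qb}
  {J : Type} [AddCommGroup J] [DistribMulAction GQ J]

/-- inertia preserves `𝔪_A` -/
theorem smul_mem_mSet {σ : GQ} (hσ : σ ∈ IA A) {a : Qb} (ha : a ∈ mSet A) : σ a ∈ mSet A := by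
  have hD : σ ∈ DA A := F.IA_le_DA A hσ
  have hinv : σ⁻¹ ∈ DA A := (DA A).inv_mem hD
  show A.valuation (σ a) < 1
  have haA : a ∈ A := (A.valuation_le_one_iff _).1 (le_of_lt ha)
  have h1 : A.valuation (σ a) ≤ 1 := (A.valuation_le_one_iff _).2 (F.smul_mem_of_mem_DA hD haA)
  refine lt_of_le_of_ne h1 fun h => ?_
  have ha0 : σ a ≠ 0 := by
    intro h0
    rw [h0, map_zero] at h
    exact zero_ne_one h
  have h2 : A.valuation (σ a)⁻¹ ≤ 1 := by rw [map_inv₀, h, inv_one]
  have h3 : (σ a)⁻¹ ∈ A := (A.valuation_le_one_iff _).1 h2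
  have h4 : σ⁻¹ ((σ a)⁻¹) ∈ A := F.smul_mem_of_mem_DA hinv h3
  have h5 : σ⁻¹ ((σ a)⁻¹) = a⁻¹ := by
    rw [map_inv₀]
    congr 1
    show σ.symm (σ a) = a
    exact σ.symm_apply_apply a
  rw [h5] at h4
  have h6 : A.valuation a⁻¹ ≤ 1 := (A.valuation_le_one_iff _).2 h4
  rw [map_inv₀] at h6
  have ha0' : a ≠ 0 := fun h0 => ha0 (by rw [h0, map_zero])
  have h7 : A.valuation a ≠ 0 := (A.valuation.ne_zero_iff).2 ha0'
  have h8 : (1 : A.ValueGroup) ≤ A.valuation a := (inv_le_one₀ (zero_lt_iff.mpr h7)).1 h6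
  exact absurd ha (not_lt.2 h8)

/-- the coordinates of an inertia-level germ are inertia-equivariant on `K` -/
theorem IGerm.coord_smul (G : IGerm A ℓ J) {σ : GQ} (hσ : σ ∈ IA A) {x : J} (hx : x ∈ G.K)
    (i : Fin G.g) : G.coord (σ • x) i = σ (G.coord x i) := by
  have h1 := G.Θ_smul σ hσ (G.coord x) (G.coord_mem x hx)
  rw [G.Θ_coord x hx] at h1
  rw [← h1, G.coord_Θ _ fun j => smul_mem_mSet hσ (G.coord_mem x hx j)]

/-- **(P3) for an inertia-level germ**: every finite inertia-stable subgroup of the kernel of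
reduction carries a connected `A0`-Hopf order. -/
theorem exists_connected_hopfOrder_of_iGerm (hA : A.LiesOverPrime ℓ) (G : IGerm A ℓ J)
    (Γ : AddSubgroup J) [Finite Γ] (hΓK : Γ ≤ G.K) (hst : ∀ σ ∈ IA A, ∀ x ∈ Γ, σ • x ∈ Γ) :
    ∃ O : HopfOrder A ℓ (A0 A) (IA A) Γ, IsConnectedOrder O := by
  refine exists_connected_hopfOrder_of_coords A hA Γ hst G.coord
    (fun x hx i => G.coord_mem x (hΓK hx) i)
    (fun σ hσ x hx i => G.coord_smul hσ (hΓK hx) i)
    (fun x hx y hy h => ?_) ?_ ?_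
  · rw [← G.Θ_coord x (hΓK hx), ← G.Θ_coord y (hΓK hy), h]
  · refine ⟨fun w i => G.coord (G.Θ (fun j => w (Sum.inl j)) + G.Θ (fun j => w (Sum.inr j))) i,
      G.add_analytic, fun x hx x' hx' => ?_⟩
    funext i
    show G.coord (x + x') i = G.coord (G.Θ (G.coord x) + G.Θ (G.coord x')) i
    rw [G.Θ_coord x (hΓK hx), G.Θ_coord x' (hΓK hx')]
  · refine ⟨fun u i => G.coord (- G.Θ u) i, G.neg_analytic, fun x hx => ?_⟩
    funext i
    show G.coord (-x) i = G.coord (- G.Θ (G.coord x)) i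
    rw [G.Θ_coord x (hΓK hx)]

/-- **(P3) for a landed analytic germ** (no unramified centres needed) -/
theorem exists_connected_hopfOrder (hA : A.LiesOverPrime ℓ) (G : AnalyticGerm A ℓ J)
    (Γ : AddSubgroup J) [Finite Γ] (hΓK : Γ ≤ G.K) (hst : ∀ σ ∈ IA A, ∀ x ∈ Γ, σ • x ∈ Γ) :
    ∃ O : HopfOrder A ℓ (A0 A) (IA A) Γ, IsConnectedOrder O :=
  exists_connected_hopfOrder_of_iGerm hA (IGerm.ofAnalyticGerm G) Γ hΓK hst

end Germ

end Fermat.Agent.S33lib.Germ

end
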