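/-
S33lib / Germ / PFilt  (helper9)  — Project LSp: `PFiltStmt` from an inertia-level germ.

The consumer shape of `Germ/Order`: if for every place `A ∣ p` and every `n` there are an
inertia-level germ `G : IGerm A p (JZero N)` and a subgroup `K ≤ J₀(N)[p^n]` with `K ≤ G.K`
satisfying (P1) and (P2), then `PFiltStmt N p` holds; the connected Hopf order (P3) is
`Germ.exists_connected_hopfOrder_of_iGerm` (`K` is finite by `S19lib.T.torsStmt`).
-/
import Mathlib
import Fermat.Agent.S19lib.T.Tors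
import Fermat.Agent.S33lib.Germ.Order

set_option autoImplicit false

noncomputable section

namespace Fermat.Agent.S33lib.Germ

open Fermat.Agent.S19lib

local notation "Qb" => AlgebraicClosure ℚ
local notation "GQ" => (AlgebraicClosure ℚ ≃ₐ[ℚ] AlgebraicClosure ℚ)

/-- a subgroup of `J₀(N)[m]`, `m ≠ 0`, is finite -/
theorem finite_of_le_tors {N : ℕ} [NeZero N] {m : ℤ} (hm : m ≠ 0)
    {K : AddSubgroup (ModularCurve.JZero N)} (hK : K ≤ tors N m) : Finite K := by
  have : Finite (tors N m) := (Fermat.Agent.S19lib.T.torsStmt N m hm).finite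
  exact Finite.of_injective (AddSubgroup.inclusion hK) (AddSubgroup.inclusion_injective hK)

/-- **`PFiltStmt` from germs**: (P1) + (P2) + "`K` lies in the kernel of reduction of an
inertia-level germ" give `PFiltStmt`. -/
theorem pFiltStmt_of_iGerm {N : ℕ} [NeZero N] {p : ℕ} [Fact p.Prime]
    (h : ∀ A : ValuationSubring Qb, A.LiesOverPrime p → ∀ n : ℕ,
      ∃ (G : IGerm A p (ModularCurve.JZero N)) (K : AddSubgroup (ModularCurve.JZero N)),
        K ≤ tors N ((p : ℤ) ^ n) ∧ K ≤ G.K ∧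
        (∀ σ ∈ IA A, ∀ x ∈ K, σ • x ∈ K) ∧
        (∀ σ ∈ IA A, ∀ τ ∈ IA A, ∀ x ∈ tors N ((p : ℤ) ^ n),
          σ • (τ • x - x) - (τ • x - x) ∈ K)) :
    PFiltStmt N p := by
  intro A hA n
  obtain ⟨G, K, hK, hKG, hst, h2⟩ := h A hA n
  have hp : p.Prime := Fact.out
  have hm : ((p : ℤ) ^ n) ≠ 0 := pow_ne_zero _ (by exact_mod_cast hp.ne_zero)
  have : Finite K := finite_of_le_tors hm hK
  obtain ⟨O, hO⟩ := exists_connected_hopfOrder_of_iGerm hA G K hKG hst
  exact ⟨K, hK, hst, h2, O, hO⟩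

/-- the same with a landed `AnalyticGerm` -/
theorem pFiltStmt_of_analyticGerm {N : ℕ} [NeZero N] {p : ℕ} [Fact p.Prime]
    (h : ∀ A : ValuationSubring Qb, A.LiesOverPrime p → ∀ n : ℕ,
      ∃ (G : AnalyticGerm A p (ModularCurve.JZero N)) (K : AddSubgroup (ModularCurve.JZero N)),
        K ≤ tors N ((p : ℤ) ^ n) ∧ K ≤ G.K ∧
        (∀ σ ∈ IA A, ∀ x ∈ K, σ • x ∈ K) ∧
        (∀ σ ∈ IA A, ∀ τ ∈ IA A, ∀ x ∈ tors N ((p : ℤ) ^ n),
          σ • (τ • x - x) - (τ • x - x) ∈ K)) :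
    PFiltStmt N p :=
  pFiltStmt_of_iGerm fun A hA n => by
    obtain ⟨G, K, h1, h2, h3, h4⟩ := h A hA n
    exact ⟨IGerm.ofAnalyticGerm G, K, h1, h2, h3, h4⟩

end Fermat.Agent.S33lib.Germ

end
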